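import Fermat.Agent.MFLib.Division

set_option autoImplicit false

open Complex Filter Topology Metric MeromorphicOn
open scoped Manifold

namespace Fermat.Agent.Kum3

noncomputable section

/-- logarithm of a nonvanishing holomorphic function on a ball -/
lemma exists_log_ball {g : ℂ → ℂ} {c : ℂ} {r : ℝ} (hg : DifferentiableOn ℂ g (ball c r))
    (hr : 0 < r) (hg0 : ∀ z ∈ ball c r, g z ≠ 0) :
    ∃ G : ℂ → ℂ, DifferentiableOn ℂ G (ball c r) ∧ ∀ z ∈ ball c r, g z = exp (G z) := by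
  have hgd : DifferentiableOn ℂ (deriv g) (ball c r) := hg.deriv isOpen_ball
  obtain ⟨G, hGc, hG⟩ := (DifferentiableOn.isExactOn_ball
    (hgd.fun_div hg hg0)).with_val_at c (log (g c))
  have hGd : DifferentiableOn ℂ G (ball c r) := fun z hz =>
    (hG z hz).differentiableAt.differentiableWithinAt
  refine ⟨G, hGd, ?_⟩
  have hc : c ∈ ball c r := mem_ball_self hr
  -- the quotient is constant
  have hd : ∀ z ∈ ball c r, HasDerivAt (fun z => g z * exp (-G z)) 0 z := by
    intro z hz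
    have h1 : HasDerivAt g (deriv g z) z :=
      (hg.differentiableAt (isOpen_ball.mem_nhds hz)).hasDerivAt
    have h2 : HasDerivAt (fun z => exp (-G z)) (exp (-G z) * (-(deriv g z / g z))) z :=
      (hG z hz).neg.cexp
    have h3 := h1.mul h2
    have h4 : deriv g z * exp (-G z) + g z * (exp (-G z) * (-(deriv g z / g z))) = 0 := by
      have := hg0 z hz
      field_simp
      ring
    rw [h4] at h3
    exact h3
  obtain ⟨a, ha⟩ := isOpen_ball.exists_is_const_of_deriv_eq_zero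
    (convex_ball c r).isPreconnected (f := fun z => g z * exp (-G z))
    (fun z hz => (hd z hz).differentiableAt.differentiableWithinAt)
    (fun z hz => (hd z hz).deriv)
  have hac : a = 1 := by
    rw [← ha c hc, hGc, exp_neg, exp_log (hg0 c hc), mul_inv_cancel₀ (hg0 c hc)]
  intro z hz
  have h4 := ha z hz
  rw [hac] at h4
  rw [← mul_one (exp (G z)), ← h4, exp_neg]
  field_simp

/-- roots on balls -/
lemma exists_root_ball {F : ℂ → ℂ} {c : ℂ} {r : ℝ} (hr : 0 < r)
    (hF : AnalyticOnNhd ℂ F (closedBall c r)) (hF0 : ∀ z ∈ closedBall c r, analyticOrderAt F z ≠ ⊤)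
    {m : ℕ} (hm : 0 < m) (hord : ∀ z ∈ closedBall c r, ∃ k : ℕ, analyticOrderAt F z = (m * k : ℕ)) :
    ∃ u : ℂ → ℂ, DifferentiableOn ℂ u (ball c r) ∧ ∀ z ∈ ball c r, u z ^ m = F z := by
  classical
  have hmer : MeromorphicOn F (closedBall c r) := fun z hz => (hF z hz).meromorphicAt
  have hfin : (divisor F (closedBall c r)).support.Finite :=
    (divisor F (closedBall c r)).finiteSupport (isCompact_closedBall c r)
  have htop : ∀ u : closedBall c r, meromorphicOrderAt F u ≠ ⊤ := by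
    intro u
    rw [(hF u u.2).meromorphicOrderAt_eq]
    intro h
    apply hF0 u u.2
    simpa using h
  obtain ⟨g, hg, hg0, hFg⟩ := hmer.extract_zeros_poles htop hfin
  choose k hk using hord
  set s := hfin.toFinset with hs
  have hsub : ∀ u ∈ s, u ∈ closedBall c r := by
    intro u hu
    rw [hs, Set.Finite.mem_toFinset] at hu
    by_contra hcon
    exact hu (Function.locallyFinsuppWithin.apply_eq_zero_of_notMem _ hcon)
  have hD : ∀ u (hu : u ∈ closedBall c r), divisor F (closedBall c r) u = ((m * k u hu : ℕ) : ℤ) := by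
    intro u hu
    rw [divisor_apply hmer hu, (hF u hu).meromorphicOrderAt_eq, hk u hu]
    simp
  let kk : ℂ → ℕ := fun u => if hu : u ∈ closedBall c r then k u hu else 0
  let P : ℂ → ℂ := fun z => ∏ u ∈ s, (z - u) ^ kk u
  have hprod : ∀ z, (∏ᶠ u, (fun z : ℂ => z - u) ^ divisor F (closedBall c r) u) z = P z ^ m := by
    intro z
    rw [finprod_eq_prod_of_mulSupport_subset (s := s)]
    · rw [Finset.prod_apply, ← Finset.prod_pow]
      refine Finset.prod_congr rfl fun u hu => ?_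
      rw [hD u (hsub u hu)]
      simp only [kk, hsub u hu, ↓reduceDIte, Pi.pow_apply, zpow_natCast]
      rw [mul_comm, pow_mul]
    · intro u hu
      rw [Function.mem_mulSupport] at hu
      rw [hs, Set.Finite.coe_toFinset, Function.mem_support]
      intro h0
      apply hu
      rw [h0, zpow_zero]
  have hPd : Differentiable ℂ P := by
    intro z
    exact DifferentiableAt.fun_finsetProd fun u _ => by fun_prop
  have heq : ∀ z ∈ ball c r, F z = P z ^ m * g z := by
    intro z hz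
    have hzc : z ∈ closedBall c r := ball_subset_closedBall hz
    have h1 := mem_codiscreteWithin.mp hFg z hzc
    have h2 : ∀ᶠ w in 𝓝[≠] z, F w = P w ^ m * g w := by
      rw [disjoint_principal_right] at h1
      have h3 : ball c r ∈ 𝓝[≠] z := mem_nhdsWithin_of_mem_nhds (isOpen_ball.mem_nhds hz)
      filter_upwards [h1, h3] with w hw hw2
      simp only [Set.mem_compl_iff, Set.mem_sdiff, not_and, not_not] at hw
      have h4 := hw (ball_subset_closedBall hw2)
      have h5 : F w = ((∏ᶠ u, (fun z : ℂ => z - u) ^ divisor F (closedBall c r) u) • g) w := h4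
      rw [h5, Pi.smul_apply', hprod, smul_eq_mul]
    have h6 : ContinuousAt F z := (hF z hzc).continuousAt
    have h7 : ContinuousAt (fun w => P w ^ m * g w) z :=
      ((hPd z).continuousAt.pow m).mul (hg z hzc).continuousAt
    exact tendsto_nhds_unique_of_frequently_eq
      (h6.tendsto.mono_left nhdsWithin_le_nhds) (h7.tendsto.mono_left nhdsWithin_le_nhds)
      h2.frequently
  obtain ⟨G, hG, hGg⟩ := exists_log_ball (g := g) (c := c) (r := r)
    (fun z hz => (hg z (ball_subset_closedBall hz)).differentiableAt.differentiableWithinAt) hr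
    (fun z hz => hg0 ⟨z, ball_subset_closedBall hz⟩)
  refine ⟨fun z => P z * exp (G z / m), hPd.differentiableOn.mul (hG.div_const _).cexp, ?_⟩
  intro z hz
  rw [heq z hz, hGg z hz, mul_pow, ← exp_nat_mul]
  congr 2
  have : (m : ℂ) ≠ 0 := by exact_mod_cast hm.ne'
  field_simp

open UpperHalfPlane in
/-- The discs exhausting the upper half plane. -/
def dsc (n : ℕ) : Set ℂ := ball (((n : ℂ) + 2) * Complex.I) ((n : ℝ) + 2 - 1 / (n + 2))

lemma dsc_mono_succ (n : ℕ) : dsc n ⊆ dsc (n + 1) := by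
  apply ball_subset_ball'
  rw [dist_eq_norm]
  have h1 : ((n : ℂ) + 2) * Complex.I - (((n + 1 : ℕ) : ℂ) + 2) * Complex.I = -Complex.I := by
    push_cast; ring
  rw [h1, norm_neg, norm_I]
  have h2 : (1 : ℝ) / (((n + 1 : ℕ) : ℝ) + 2) ≤ 1 / (n + 2) := by
    apply one_div_le_one_div_of_le <;> push_cast <;> linarith
  push_cast at h2 ⊢
  linarith

lemma dsc_mono {n n' : ℕ} (h : n ≤ n') : dsc n ⊆ dsc n' :=
  monotone_nat_of_le_succ (f := dsc) dsc_mono_succ h

lemma closedBall_dsc_im {n : ℕ} {z : ℂ}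
    (hz : z ∈ closedBall (((n : ℂ) + 2) * Complex.I) ((n : ℝ) + 2 - 1 / (n + 2))) : 0 < z.im := by
  rw [mem_closedBall, dist_eq_norm] at hz
  have h1 := (abs_im_le_norm (z - ((n : ℂ) + 2) * Complex.I)).trans hz
  have h2 : (z - ((n : ℂ) + 2) * Complex.I).im = z.im - (n + 2) := by simp
  rw [h2, abs_le] at h1
  have h3 : (0 : ℝ) < 1 / (n + 2) := by positivity
  linarith [h1.1]

lemma exists_mem_dsc {z : ℂ} (hz : 0 < z.im) : ∃ n, z ∈ dsc n := by
  -- |z - (n+2) i|^2 = x^2 + (y - (n+2))^2 < (n+2 - 1/(n+2))^2 for large n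
  obtain ⟨n, hn⟩ := exists_nat_gt ((z.re ^ 2 + z.im ^ 2 + 2) / (2 * z.im))
  refine ⟨n, ?_⟩
  rw [dsc, mem_ball, dist_eq_norm]
  have hn2 : (2 : ℝ) ≤ n + 2 := by
    have : (0 : ℝ) ≤ n := Nat.cast_nonneg n
    linarith
  have hr : (0 : ℝ) < (n : ℝ) + 2 - 1 / (n + 2) := by
    have : (1 : ℝ) / (n + 2) ≤ 1 := by
      rw [div_le_one (by linarith)]; linarith
    linarith
  rw [← sq_lt_sq₀ (norm_nonneg _) hr.le, Complex.sq_norm, normSq_apply]
  have h1 : (z - ((n : ℂ) + 2) * Complex.I).re = z.re := by simp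
  have h2 : (z - ((n : ℂ) + 2) * Complex.I).im = z.im - (n + 2) := by simp
  rw [h1, h2]
  rw [div_lt_iff₀ (by positivity)] at hn
  have h3 : ((n : ℝ) + 2 - 1 / (n + 2)) ^ 2 = (n + 2) ^ 2 - 2 + (1 / (n + 2)) ^ 2 := by
    have : ((n : ℝ) + 2) ≠ 0 := by linarith
    field_simp
    ring
  rw [h3]
  have h4 : (0 : ℝ) < (1 / ((n : ℝ) + 2)) ^ 2 := by positivity
  nlinarith

/-- roots with the same value at a point agree near that point -/
lemma eventually_eq_of_pow_eq {u v F : ℂ → ℂ} {z : ℂ} (hu : ContinuousAt u z)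
    (hv : ContinuousAt v z) {m : ℕ} (hm : 0 < m) (hz : u z = v z) (hF : F z ≠ 0)
    (huF : ∀ᶠ w in 𝓝 z, u w ^ m = F w) (hvF : ∀ᶠ w in 𝓝 z, v w ^ m = F w) :
    ∀ᶠ w in 𝓝 z, u w = v w := by
  have hvz : v z ≠ 0 := by
    intro h0
    apply hF
    rw [← hvF.self_of_nhds, h0, zero_pow hm.ne']
  have hv0 : ∀ᶠ w in 𝓝 z, v w ≠ 0 := hv.eventually_ne hvz
  have hh : ContinuousAt (fun w => u w / v w) z := hu.div hv hvz
  have hS : ContinuousAt (fun w => ∑ i ∈ Finset.range m, (u w / v w) ^ i) z :=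
    tendsto_finsetSum _ fun i _ => hh.pow i
  have hSz : (∑ i ∈ Finset.range m, (u z / v z) ^ i) ≠ 0 := by
    rw [hz, div_self hvz]
    simp [hm.ne']
  filter_upwards [huF, hvF, hv0, hS.eventually_ne hSz] with w h1 h2 h3 h4
  have h5 : (∑ i ∈ Finset.range m, (u w / v w) ^ i) * (u w / v w - 1) = 0 := by
    rw [geom_sum_mul, div_pow, h1, h2, div_self, sub_self]
    rw [← h2]
    exact pow_ne_zero m h3
  have h6 := (mul_eq_zero.mp h5).resolve_left h4
  rw [sub_eq_zero, div_eq_one_iff_eq h3] at h6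
  exact h6

open UpperHalfPlane in
/-- `m`-th roots of holomorphic functions on the upper half plane. -/
theorem exists_root {U : ℍ → ℂ} (hU : MDiff U) (hU0 : U ≠ 0) {m : ℕ} (hm : 0 < m)
    (hord : ∀ τ : ℍ, ∃ k : ℕ, analyticOrderAt (U ∘ ofComplex) τ = (m * k : ℕ)) :
    ∃ u : ℍ → ℂ, MDiff u ∧ ∀ τ, u τ ^ m = U τ := by
  classical
  set F := U ∘ ofComplex with hFdef
  have hF : ∀ z : ℂ, 0 < z.im → AnalyticAt ℂ F z := fun z hz =>
    Fermat.Agent.MFLib.analyticAt_ofComplex hU ⟨z, hz⟩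
  have hF0 : ∀ z : ℂ, 0 < z.im → analyticOrderAt F z ≠ ⊤ := fun z hz =>
    Fermat.Agent.MFLib.order_ne_top hU hU0 ⟨z, hz⟩
  -- roots on the discs
  have hex : ∀ n : ℕ, ∃ u : ℂ → ℂ, DifferentiableOn ℂ u (dsc n) ∧ ∀ z ∈ dsc n, u z ^ m = F z := by
    intro n
    have hr : (0 : ℝ) < (n : ℝ) + 2 - 1 / (n + 2) := by
      have h0 : (0 : ℝ) ≤ n := Nat.cast_nonneg n
      have : (1 : ℝ) / (n + 2) ≤ 1 := by
        rw [div_le_one (by linarith)]; linarith
      linarith
    exact exists_root_ball hr (fun z hz => hF z (closedBall_dsc_im hz))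
      (fun z hz => hF0 z (closedBall_dsc_im hz)) hm
      (fun z hz => hord ⟨z, closedBall_dsc_im hz⟩)
  choose v hv hvF using hex
  have hdim : ∀ (n : ℕ) (z : ℂ), z ∈ dsc n → 0 < z.im := fun n z hz =>
    closedBall_dsc_im (ball_subset_closedBall hz)
  have hopen : ∀ n, IsOpen (dsc n) := fun n => isOpen_ball
  -- base point
  obtain ⟨z₀, hz₀, hFz₀⟩ : ∃ z₀ ∈ dsc 0, F z₀ ≠ 0 := by
    by_contra hcon
    push Not at hcon
    have h2 : (2 * Complex.I : ℂ) ∈ dsc 0 := by
      rw [dsc]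
      have : (((0 : ℕ) : ℂ) + 2) * Complex.I = 2 * Complex.I := by simp
      rw [this]
      apply mem_ball_self
      norm_num
    apply hF0 (2 * Complex.I) (by simp)
    rw [analyticOrderAt_eq_top]
    filter_upwards [(hopen 0).mem_nhds h2] with w hw
    exact hcon w hw
  have hz₀n : ∀ n, z₀ ∈ dsc n := fun n => dsc_mono (Nat.zero_le n) hz₀
  have hvz : ∀ n, v n z₀ ≠ 0 := fun n h0 => by
    apply hFz₀
    rw [← hvF n z₀ (hz₀n n), h0, zero_pow hm.ne']
  let w : ℕ → ℂ → ℂ := fun n z => v 0 z₀ / v n z₀ * v n z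
  have hw : ∀ n, DifferentiableOn ℂ (w n) (dsc n) := fun n => (hv n).const_mul _
  have hwF : ∀ n, ∀ z ∈ dsc n, w n z ^ m = F z := by
    intro n z hz
    simp only [w]
    rw [mul_pow, div_pow, hvF n z hz, hvF 0 z₀ hz₀, hvF n z₀ (hz₀n n), div_self hFz₀, one_mul]
  have hwz : ∀ n, w n z₀ = v 0 z₀ := fun n => div_mul_cancel₀ _ (hvz n)
  have hagree : ∀ n n' : ℕ, n ≤ n' → Set.EqOn (w n) (w n') (dsc n) := by
    intro n n' hnn
    have h1 : AnalyticOnNhd ℂ (w n) (dsc n) := (hw n).analyticOnNhd (hopen n)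
    have h2 : AnalyticOnNhd ℂ (w n') (dsc n) := ((hw n').mono (dsc_mono hnn)).analyticOnNhd (hopen n)
    refine h1.eqOn_of_preconnected_of_eventuallyEq h2 (convex_ball _ _).isPreconnected (hz₀n n) ?_
    refine eventually_eq_of_pow_eq (F := F) (h1 z₀ (hz₀n n)).continuousAt
      (h2 z₀ (hz₀n n)).continuousAt hm ((hwz n).trans (hwz n').symm) hFz₀ ?_ ?_
    · filter_upwards [(hopen n).mem_nhds (hz₀n n)] with z hz using hwF n z hz
    · filter_upwards [(hopen n).mem_nhds (hz₀n n)] with z hz using hwF n' z (dsc_mono hnn hz)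
  let idx : ℂ → ℕ := fun z => if h : 0 < z.im then (exists_mem_dsc h).choose else 0
  have hidx : ∀ z : ℂ, 0 < z.im → z ∈ dsc (idx z) := by
    intro z hz
    simp only [idx, hz, ↓reduceDIte]
    exact (exists_mem_dsc hz).choose_spec
  let u : ℂ → ℂ := fun z => w (idx z) z
  have hu : ∀ n, Set.EqOn u (w n) (dsc n) := by
    intro n z hz
    have him := hdim n z hz
    change w (idx z) z = w n z
    rw [hagree _ _ (le_max_left (idx z) n) (hidx z him), hagree _ _ (le_max_right (idx z) n) hz]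
  have hud : ∀ z : ℂ, 0 < z.im → DifferentiableAt ℂ u z := by
    intro z hz
    have h1 := hidx z hz
    have h2 : DifferentiableAt ℂ (w (idx z)) z := (hw _).differentiableAt ((hopen _).mem_nhds h1)
    refine h2.congr_of_eventuallyEq ?_
    filter_upwards [(hopen _).mem_nhds h1] with y hy using hu _ hy
  refine ⟨fun τ => u τ, ?_, fun τ => ?_⟩
  · rw [UpperHalfPlane.mdifferentiable_iff]
    intro z hz
    have hz' : 0 < z.im := hz
    refine ((hud z hz').congr_of_eventuallyEq ?_).differentiableWithinAt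
    filter_upwards [isOpen_upperHalfPlaneSet.mem_nhds hz'] with y hy
    simp only [Function.comp_apply]
    rw [ofComplex_apply_of_im_pos hy]
  · have h1 := hwF (idx τ) τ (hidx τ τ.im_pos)
    change w (idx τ) τ ^ m = U τ
    rw [h1, hFdef]
    simp

end

end Fermat.Agent.Kum3
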