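import Fermat.Agent.Kum3.WEis

set_option autoImplicit false

open ModularForm UpperHalfPlane Matrix EisensteinSeries Filter Topology Complex CongruenceSubgroup
open scoped MatrixGroups Manifold UpperHalfPlane

namespace Fermat.Agent.Kum3

noncomputable section

open Fermat.Agent.MFLib

/-- bottom row -/
def brow (γ : SL(2, ℤ)) : Fin 2 → ℤ := fun j => γ 1 j

lemma brow_eq (γ : SL(2, ℤ)) : brow γ = ![0, 1] ᵥ* (γ : Matrix (Fin 2) (Fin 2) ℤ) := by
  ext j
  simp [brow, vecMul, dotProduct, Fin.sum_univ_two]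

lemma brow_mul (γ δ : SL(2, ℤ)) :
    brow (γ * δ) = brow γ ᵥ* (δ : Matrix (Fin 2) (Fin 2) ℤ) := by
  rw [brow_eq, brow_eq, vecMul_vecMul]
  rfl

lemma exists_T_zpow_of_brow_eq {γ δ : SL(2, ℤ)} (h : brow γ = brow δ) :
    ∃ n : ℤ, δ = ModularGroup.T ^ n * γ := by
  -- `δ γ⁻¹` has bottom row `(0, 1)`
  have h1 : brow (δ * γ⁻¹) = ![0, 1] := by
    rw [brow_mul, ← h, brow_eq, vecMul_vecMul]
    rw [coe_mul_inv, vecMul_one]
  have h10 : (δ * γ⁻¹) 1 0 = 0 := congrFun h1 0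
  have h11 : (δ * γ⁻¹) 1 1 = 1 := congrFun h1 1
  have hdet := (δ * γ⁻¹).det_coe
  rw [det_fin_two, h10, h11] at hdet
  have h00 : (δ * γ⁻¹) 0 0 = 1 := by linarith
  refine ⟨(δ * γ⁻¹) 0 1, ?_⟩
  rw [← mul_inv_eq_iff_eq_mul]
  ext i j
  rw [ModularGroup.coe_T_zpow]
  fin_cases i <;> fin_cases j
  · exact h00
  · rfl
  · exact h10
  · exact h11

section character

variable {Γ : Subgroup SL(2, ℤ)} (χ : Γ →* ℂˣ)

open Classical in
/-- the weight attached to a character -/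
def wchi (v : Fin 2 → ℤ) : ℂ :=
  if h : ∃ γ : Γ, brow γ = v then ((χ h.choose : ℂˣ) : ℂ)⁻¹ else 0

variable {χ}

/-- the hypothesis: trivial on elements of trace `±2` -/
def ParTriv (χ : Γ →* ℂˣ) : Prop :=
  ∀ γ : Γ, ((γ : SL(2, ℤ)) : Matrix (Fin 2) (Fin 2) ℤ).trace ^ 2 = 4 → χ γ = 1

lemma trace_T_zpow (n : ℤ) :
    ((ModularGroup.T ^ n : SL(2, ℤ)) : Matrix (Fin 2) (Fin 2) ℤ).trace ^ 2 = 4 := by
  rw [ModularGroup.coe_T_zpow]
  simp [Matrix.trace_fin_two]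

lemma wchi_brow (hχ : ParTriv χ) (γ : Γ) : wchi χ (brow γ) = ((χ γ : ℂˣ) : ℂ)⁻¹ := by
  have h : ∃ γ' : Γ, brow γ' = brow γ := ⟨γ, rfl⟩
  rw [wchi, dif_pos h]
  have hs := h.choose_spec
  generalize h.choose = c at hs ⊢
  obtain ⟨n, hn⟩ := exists_T_zpow_of_brow_eq hs
  have hmem : ModularGroup.T ^ n ∈ Γ := by
    have h1 : ModularGroup.T ^ n = (γ : SL(2, ℤ)) * (c : SL(2, ℤ))⁻¹ := by
      rw [hn]; group
    rw [h1]
    exact Γ.mul_mem γ.2 (Γ.inv_mem c.2)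
  have h2 : γ = ⟨ModularGroup.T ^ n, hmem⟩ * c := Subtype.ext hn
  rw [h2, map_mul, hχ ⟨ModularGroup.T ^ n, hmem⟩ (trace_T_zpow n), one_mul]

lemma wchi_eq_zero {v : Fin 2 → ℤ} (h : ¬ ∃ γ : Γ, brow γ = v) : wchi χ v = 0 := by
  rw [wchi, dif_neg h]

lemma wchi_vecMul (hχ : ParTriv χ) (γ : Γ) (v : Fin 2 → ℤ) :
    wchi χ (v ᵥ* (((γ : SL(2, ℤ))⁻¹ : SL(2, ℤ)) : Matrix (Fin 2) (Fin 2) ℤ)) =
      ((χ γ : ℂˣ) : ℂ) * wchi χ v := by
  by_cases h : ∃ δ : Γ, brow δ = v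
  · obtain ⟨δ, rfl⟩ := h
    rw [← brow_mul]
    have h1 : (δ : SL(2, ℤ)) * (γ : SL(2, ℤ))⁻¹ = ((δ * γ⁻¹ : Γ) : SL(2, ℤ)) := rfl
    rw [h1, wchi_brow hχ, wchi_brow hχ, map_mul, map_inv]
    push_cast
    rw [_root_.mul_inv, inv_inv, _root_.mul_comm]
  · rw [wchi_eq_zero h, mul_zero]
    apply wchi_eq_zero
    rintro ⟨δ, hδ⟩
    apply h
    refine ⟨δ * γ, ?_⟩
    rw [Subgroup.coe_mul, brow_mul, hδ, vecMul_vecMul, coe_inv_mul, vecMul_one]

lemma norm_wchi_le (hχ1 : ∀ γ : Γ, ‖((χ γ : ℂˣ) : ℂ)‖ = 1) (v : Fin 2 → ℤ) : ‖wchi χ v‖ ≤ 1 := by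
  rw [wchi]
  split_ifs with h
  · rw [norm_inv, hχ1, inv_one]
  · simp

/-- Eisenstein series with character -/
theorem wE_wchi_slash (hχ : ParTriv χ) (k : ℤ) (γ : Γ) :
    wE (wchi χ) k ∣[k] (γ : SL(2, ℤ)) = ((χ γ : ℂˣ) : ℂ) • wE (wchi χ) k := by
  rw [wE_slash]
  ext z
  simp only [wE, wchi_vecMul hχ, Pi.smul_apply, smul_eq_mul, ← tsum_mul_left, mul_assoc]

/-- the constant term -/
lemma tendsto_wE {w : (Fin 2 → ℤ) → ℂ} {k : ℤ} (hw : ∀ v, ‖w v‖ ≤ 1) (hk : 3 ≤ k) :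
    Tendsto (fun y : ℝ => wE w k (⟨(max y 1 : ℝ) * Complex.I, by simp⟩ : ℍ)) atTop
      (𝓝 (∑' v : Fin 2 → ℤ, if v 0 = 0 then w v * ((v 1 : ℂ)) ^ (-k) else 0)) := by
  have hk' : (2 : ℝ) < k := by norm_cast
  have hk0 : (0 : ℝ) ≤ k := by linarith
  refine tendsto_tsum_of_dominated_convergence
    (bound := fun v => r ⟨⟨0, 1⟩, one_pos⟩ ^ (-k : ℝ) * ‖v‖ ^ (-k : ℝ))
    ((summable_one_div_norm_rpow hk').mul_left _) ?_ ?_
  · intro v
    split_ifs with hv
    · refine tendsto_const_nhds.congr fun y => ?_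
      rw [eisSummand, hv]
      simp
    · -- tends to zero
      have h1 : Tendsto (fun y : ℝ => ‖w v * eisSummand k v
          (⟨(max y 1 : ℝ) * Complex.I, by simp⟩ : ℍ)‖) atTop (𝓝 0) := by
        have h2 : Tendsto (fun y : ℝ => (max y 1) ^ (-k : ℤ)) atTop (𝓝 0) := by
          have h3 : Tendsto (fun y : ℝ => max y 1) atTop atTop :=
            tendsto_atTop_mono (fun y => le_max_left y 1) tendsto_id
          obtain ⟨n, hn⟩ := Int.eq_ofNat_of_zero_le (by linarith : 0 ≤ k)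
          rw [hn]
          have hn0 : n ≠ 0 := by rintro rfl; simp at hn; omega
          have h4 := (tendsto_pow_neg_atTop (𝕜 := ℝ) hn0).comp h3
          simpa [Function.comp_def] using h4
        refine squeeze_zero (fun _ => norm_nonneg _) (fun y => ?_) h2
        refine (norm_w_mul_le hw v _).trans ?_
        rw [eisSummand, norm_zpow]
        have h5 : (0 : ℝ) < max y 1 := lt_of_lt_of_le one_pos (le_max_right _ _)
        have h6 : max y 1 ≤ ‖(v 0 : ℂ) * ((max y 1 : ℝ) * Complex.I) + v 1‖ := by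
          have h7 := abs_im_le_norm ((v 0 : ℂ) * ((max y 1 : ℝ) * Complex.I) + v 1)
          have h8 : ((v 0 : ℂ) * ((max y 1 : ℝ) * Complex.I) + v 1).im = v 0 * max y 1 := by
            simp
          rw [h8, abs_mul, abs_of_pos h5] at h7
          refine le_trans ?_ h7
          have h9 : (1 : ℝ) ≤ |(v 0 : ℝ)| := by
            have : (1 : ℤ) ≤ |v 0| := Int.one_le_abs hv
            exact_mod_cast this
          nlinarith
        rw [_root_.zpow_neg, _root_.zpow_neg]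
        exact inv_anti₀ (zpow_pos h5 k) (zpow_le_zpow_left₀ (by linarith) h5.le h6)
      rw [tendsto_zero_iff_norm_tendsto_zero]
      exact h1
  · refine Eventually.of_forall fun y v => ?_
    refine (norm_w_mul_le hw v _).trans ?_
    have hmem : (⟨(max y 1 : ℝ) * Complex.I, by simp⟩ : ℍ) ∈ verticalStrip 0 1 := by
      rw [mem_verticalStrip_iff]
      constructor
      · simp [← coe_re]
      · simp [← coe_im]
    have := summand_bound_of_mem_verticalStrip hk0 v one_pos hmem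
    rw [eisSummand, norm_zpow, ← Real.rpow_intCast]
    push_cast
    exact this

lemma wE_wchi_ne_zero (hχ : ParTriv χ) (hχ1 : ∀ γ : Γ, ‖((χ γ : ℂˣ) : ℂ)‖ = 1) {k : ℤ}
    (hk : 3 ≤ k) (hk2 : Even k) : wE (wchi χ) k ≠ 0 := by
  intro h0
  have h1 := tendsto_wE (norm_wchi_le hχ1) hk
  rw [h0] at h1
  simp only [Pi.zero_apply] at h1
  have h2 := tendsto_nhds_unique h1 tendsto_const_nhds
  -- compute the constant term
  have hsupp : ∀ v : Fin 2 → ℤ, v ∉ ({![0, 1], ![0, -1]} : Finset (Fin 2 → ℤ)) →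
      (if v 0 = 0 then wchi χ v * ((v 1 : ℂ)) ^ (-k) else 0) = 0 := by
    intro v hv
    split_ifs with hv0
    · rw [wchi_eq_zero, zero_mul]
      rintro ⟨γ, hγ⟩
      have h10 : (γ : SL(2, ℤ)) 1 0 = 0 := by
        have := congrFun hγ 0
        rw [← hv0]; exact this
      have h11 : (γ : SL(2, ℤ)) 1 1 = v 1 := congrFun hγ 1
      have hdet := (γ : SL(2, ℤ)).det_coe
      rw [det_fin_two, h10, h11] at hdet
      have h3 : (γ : SL(2, ℤ)) 0 0 * v 1 = 1 := by linarith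
      rcases Int.eq_one_or_neg_one_of_mul_eq_one' h3 with ⟨-, h4⟩ | ⟨-, h4⟩
      · apply hv
        simp only [Finset.mem_insert, Finset.mem_singleton]
        left
        ext j; fin_cases j
        · exact hv0
        · exact h4
      · apply hv
        simp only [Finset.mem_insert, Finset.mem_singleton]
        right
        ext j; fin_cases j
        · exact hv0
        · exact h4
    · rfl
  rw [tsum_eq_sum (fun v hv => hsupp v hv)] at h2
  rw [Finset.sum_pair (by decide)] at h2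
  simp only [Matrix.cons_val_zero, Matrix.cons_val_one, ↓reduceIte, Int.cast_one, Int.cast_neg,
    _root_.one_zpow, mul_one] at h2
  have h3 : ((-1 : ℂ)) ^ (-k) = 1 := by
    rw [_root_.zpow_neg, hk2.neg_one_zpow, inv_one]
  rw [h3, mul_one] at h2
  have h4 : wchi χ ![0, 1] = 1 := by
    have := wchi_brow hχ (1 : Γ)
    rw [map_one] at this
    have h5 : brow ((1 : Γ) : SL(2, ℤ)) = ![0, 1] := by
      ext j; fin_cases j <;> simp [brow]
    rw [h5] at this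
    simpa using this
  have h5 : wchi χ ![0, -1] = 1 ∨ wchi χ ![0, -1] = 0 := by
    by_cases h : ∃ γ : Γ, brow γ = ![0, -1]
    · left
      obtain ⟨γ, hγ⟩ := h
      rw [← hγ, wchi_brow hχ]
      have h10 : (γ : SL(2, ℤ)) 1 0 = 0 := congrFun hγ 0
      have h11 : (γ : SL(2, ℤ)) 1 1 = -1 := congrFun hγ 1
      have hdet := (γ : SL(2, ℤ)).det_coe
      rw [det_fin_two, h10, h11] at hdet
      have h00 : (γ : SL(2, ℤ)) 0 0 = -1 := by linarith
      rw [hχ γ (by rw [Matrix.trace_fin_two, h00, h11]; norm_num)]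
      simp
    · right
      exact wchi_eq_zero h
  rw [h4] at h2
  rcases h5 with h5 | h5
  · rw [h5] at h2
    norm_num at h2
  · rw [h5] at h2
    norm_num at h2

/-- For every unitary character of a subgroup `Γ` of `SL(2, ℤ)`, trivial on all elements of trace
`±2`, there is a nonzero holomorphic form of weight `k` with that character, all of whose
translates are bounded at `i∞`. -/
theorem exists_form_char (χ : Γ →* ℂˣ) (hχ : ParTriv χ) (hχ1 : ∀ γ : Γ, ‖((χ γ : ℂˣ) : ℂ)‖ = 1)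
    {k : ℤ} (hk : 3 ≤ k) (hk2 : Even k) :
    ∃ E : ℍ → ℂ, HB k E ∧ E ≠ 0 ∧ ∀ γ : Γ, E ∣[k] (γ : SL(2, ℤ)) = ((χ γ : ℂˣ) : ℂ) • E :=
  ⟨wE (wchi χ) k, HB_wE (norm_wchi_le hχ1) hk, wE_wchi_ne_zero hχ hχ1 hk hk2,
    wE_wchi_slash hχ k⟩

end character

end

end Fermat.Agent.Kum3
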