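import Fermat.Agent.MFLib.Basic

set_option autoImplicit false

open ModularForm UpperHalfPlane Matrix EisensteinSeries Filter Topology Complex
open scoped MatrixGroups Manifold UpperHalfPlane

namespace Fermat.Agent.Kum3

noncomputable section

open Fermat.Agent.MFLib

/-- Eisenstein series with arbitrary bounded weights. -/
def wE (w : (Fin 2 → ℤ) → ℂ) (k : ℤ) (z : ℍ) : ℂ := ∑' v : Fin 2 → ℤ, w v * eisSummand k v z

variable {w : (Fin 2 → ℤ) → ℂ} {k : ℤ}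

lemma norm_w_mul_le (hw : ∀ v, ‖w v‖ ≤ 1) (v : Fin 2 → ℤ) (z : ℍ) :
    ‖w v * eisSummand k v z‖ ≤ ‖eisSummand k v z‖ := by
  rw [norm_mul]
  exact mul_le_of_le_one_left (norm_nonneg _) (hw v)

lemma summable_wE (hw : ∀ v, ‖w v‖ ≤ 1) (hk : 3 ≤ k) (z : ℍ) :
    Summable fun v => w v * eisSummand k v z :=
  Summable.of_norm_bounded (summable_norm_eisSummand hk z) fun v => norm_w_mul_le hw v z

lemma coe_mul_inv (γ : SL(2, ℤ)) : (γ : Matrix (Fin 2) (Fin 2) ℤ) *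
    ((γ⁻¹ : SL(2, ℤ)) : Matrix (Fin 2) (Fin 2) ℤ) = 1 := by
  have : γ * γ⁻¹ = 1 := _root_.mul_inv_cancel γ
  exact congrArg Subtype.val this

lemma coe_inv_mul (γ : SL(2, ℤ)) : ((γ⁻¹ : SL(2, ℤ)) : Matrix (Fin 2) (Fin 2) ℤ) *
    (γ : Matrix (Fin 2) (Fin 2) ℤ) = 1 := by
  have : γ⁻¹ * γ = 1 := _root_.inv_mul_cancel γ
  exact congrArg Subtype.val this

/-- right multiplication by a unimodular matrix -/
def vmulEquiv (γ : SL(2, ℤ)) : (Fin 2 → ℤ) ≃ (Fin 2 → ℤ) where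
  toFun v := v ᵥ* (γ : Matrix (Fin 2) (Fin 2) ℤ)
  invFun v := v ᵥ* ((γ⁻¹ : SL(2, ℤ)) : Matrix (Fin 2) (Fin 2) ℤ)
  left_inv v := by
    simp only [vecMul_vecMul]
    rw [coe_mul_inv, vecMul_one]
  right_inv v := by
    simp only [vecMul_vecMul]
    rw [coe_inv_mul, vecMul_one]

lemma wE_slash (γ : SL(2, ℤ)) :
    wE w k ∣[k] γ = wE (fun v => w (v ᵥ* ((γ⁻¹ : SL(2, ℤ)) : Matrix (Fin 2) (Fin 2) ℤ))) k := by
  ext z
  simp_rw [SL_slash_apply, _root_.zpow_neg,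
    mul_inv_eq_iff_eq_mul₀ (zpow_ne_zero _ <| denom_ne_zero _ z), wE, eisSummand_SL2_apply]
  rw [← tsum_mul_right]
  symm
  rw [← (vmulEquiv γ).tsum_eq]
  refine tsum_congr fun v => ?_
  have h1 : (vmulEquiv γ v) ᵥ* ((γ⁻¹ : SL(2, ℤ)) : Matrix (Fin 2) (Fin 2) ℤ) = v :=
    (vmulEquiv γ).left_inv v
  rw [h1]
  change w v * eisSummand k (v ᵥ* (γ : Matrix (Fin 2) (Fin 2) ℤ)) z * denom γ z ^ k =
    w v * (denom γ z ^ k * eisSummand k (v ᵥ* (γ : Matrix (Fin 2) (Fin 2) ℤ)) z)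
  ring

lemma wE_tendstoLocallyUniformly (hw : ∀ v, ‖w v‖ ≤ 1) (hk : 3 ≤ k) :
    TendstoLocallyUniformly (fun (s : Finset (Fin 2 → ℤ)) ↦ (∑ v ∈ s, w v * eisSummand k v ·))
      (wE w k ·) Filter.atTop := by
  have hk' : (2 : ℝ) < k := by norm_cast
  have p_sum : Summable fun x : (Fin 2 → ℤ) ↦ ‖x‖ ^ (-k) :=
    mod_cast (summable_one_div_norm_rpow hk')
  simp only [tendstoLocallyUniformly_iff_forall_isCompact, wE]
  intro K hK
  obtain ⟨A, B, hB, HABK⟩ := subset_verticalStrip_of_isCompact hK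
  refine (tendstoUniformlyOn_tsum (hu := p_sum.mul_left <| r ⟨⟨A, B⟩, hB⟩ ^ (-k : ℝ))
    (fun p z hz ↦ ?_)).mono HABK
  refine (norm_w_mul_le hw p z).trans ?_
  simpa only [eisSummand, one_div, ← _root_.zpow_neg, norm_zpow, ← Real.rpow_intCast,
    Int.cast_neg] using summand_bound_of_mem_verticalStrip (by positivity) p hB hz

lemma wE_mdifferentiable (hw : ∀ v, ‖w v‖ ≤ 1) (hk : 3 ≤ k) : MDiff (wE w k) := by
  intro τ
  suffices DifferentiableAt ℂ (↑ₕ(wE w k)) τ.1 by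
    convert!
      MDifferentiableAt.comp τ (DifferentiableAt.mdifferentiableAt this) τ.mdifferentiable_coe
    exact funext fun z ↦ (comp_ofComplex (wE w k) z).symm
  refine DifferentiableOn.differentiableAt ?_ (isOpen_upperHalfPlaneSet.mem_nhds τ.2)
  have h1 : TendstoLocallyUniformlyOn (fun (s : Finset (Fin 2 → ℤ)) ↦
      ↑ₕ(fun (z : ℍ) ↦ ∑ x ∈ s, w x * eisSummand k x z)) (↑ₕ(wE w k))
          Filter.atTop {z : ℂ | 0 < z.im} := by
    rw [← upperHalfPlaneSet, ← range_coe, ← Set.image_univ]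
    apply TendstoLocallyUniformlyOn.comp (s := ⊤) _ _ _ (OpenPartialHomeomorph.continuousOn_symm _)
    · simp only [Set.top_eq_univ, tendstoLocallyUniformlyOn_univ]
      apply wE_tendstoLocallyUniformly hw hk
    · simp only [IsOpenEmbedding.toOpenPartialHomeomorph_target, Set.top_eq_univ,
        Set.mapsTo_range_iff, Set.mem_univ, forall_const]
  exact h1.differentiableOn
    (Eventually.of_forall fun s ↦ DifferentiableOn.fun_sum
    fun _ _ ↦ (eisSummand_extension_differentiableOn _ _).const_mul _) isOpen_upperHalfPlaneSet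

lemma tsum_norm_T_zpow (n : ℤ) (z : ℍ) :
    ∑' v : Fin 2 → ℤ, ‖eisSummand k v (ModularGroup.T ^ n • z)‖ =
      ∑' v : Fin 2 → ℤ, ‖eisSummand k v z‖ := by
  have h1 : ∀ v, ‖eisSummand k v (ModularGroup.T ^ n • z)‖ =
      ‖eisSummand k (vmulEquiv (ModularGroup.T ^ n) v) z‖ := by
    intro v
    rw [eisSummand_SL2_apply, norm_mul]
    have h2 : denom ((ModularGroup.T ^ n : SL(2, ℤ)) : GL (Fin 2) ℝ) z = 1 := by
      rw [ModularGroup.denom_apply, ModularGroup.coe_T_zpow]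
      simp
    rw [h2, _root_.one_zpow, norm_one, one_mul]
    rfl
  simp_rw [h1]
  exact (vmulEquiv (ModularGroup.T ^ n)).tsum_eq (fun v => ‖eisSummand k v z‖)

lemma wE_isBoundedAtImInfty (hw : ∀ v, ‖w v‖ ≤ 1) (hk : 3 ≤ k) : IsBoundedAtImInfty (wE w k) := by
  rw [UpperHalfPlane.isBoundedAtImInfty_iff]
  refine ⟨∑'(x : Fin 2 → ℤ), r ⟨⟨1, 2⟩, Nat.ofNat_pos⟩ ^ (-k) * ‖x‖ ^ (-k), 2, ?_⟩
  intro z hz
  obtain ⟨n, hn⟩ := (ModularGroup_T_zpow_mem_verticalStrip z one_pos)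
  have h0 : ‖wE w k z‖ ≤ ∑' v : Fin 2 → ℤ, ‖eisSummand k v z‖ :=
    (norm_tsum_le_tsum_norm (summable_wE hw hk z).norm).trans
      ((summable_wE hw hk z).norm.tsum_le_tsum (fun v => norm_w_mul_le hw v z)
        (summable_norm_eisSummand hk z))
  refine h0.trans ?_
  rw [← tsum_norm_T_zpow n z]
  have hk' : (2 : ℝ) < k := by norm_cast
  simp only [Nat.cast_one, one_mul] at hn
  apply (summable_norm_eisSummand hk _).tsum_le_tsum _
  · exact_mod_cast (summable_one_div_norm_rpow hk').mul_left <| r ⟨⟨1, 2⟩, Nat.ofNat_pos⟩ ^ (-k)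
  · intro x
    simp_rw [eisSummand, norm_zpow]
    exact_mod_cast
      summand_bound_of_mem_verticalStrip (lt_trans two_pos hk').le x two_pos
      (verticalStrip_anti_right 1 hz hn)

theorem HB_wE (hw : ∀ v, ‖w v‖ ≤ 1) (hk : 3 ≤ k) : HB k (wE w k) where
  holo := wE_mdifferentiable hw hk
  bdd γ := by
    rw [wE_slash]
    exact wE_isBoundedAtImInfty (fun v => hw _) hk

end

end Fermat.Agent.Kum3
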